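import Mathlib
import Fermat.Prelude.Def_AlgebraicCurve_Repartitions

/-!
# Program V (S27), leaf A2.3: Weil differentials, basic layer

Everything is stated on the Prelude definitions `repartitions`, `repartitionsOf`,
`principalRepartitions`, `riemannRochSpace`, `H1` for an ARBITRARY constant field `K`.

* `v27d_div K x`: the principal divisor of `x` (chosen from `HasPrincipalDivisors`);
* `v27d_S D = repartitionsOf D ⊔ principalRepartitions K F`;
* `v27d_Om D`: the Weil differentials vanishing on `v27d_S D` (a `K`-subspace of the dual of the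
  adele space);
* `v27d_act ω x = x·ω` : the `F`-action on functionals, `(x·ω)(α) = ω(xα)`.
-/

set_option autoImplicit false
set_option linter.unusedSectionVars false
set_option linter.unusedVariables false

noncomputable section

namespace Fermat.Agent.V.Dual

open AlgebraicCurve Module

variable {K F : Type*} [Field K] [Field F] [Algebra K F]

/-! ### the principal divisor -/

open Classical in
variable (K) in
/-- the principal divisor of `x` (`0` for `x = 0`). -/
def v27d_div [HasPrincipalDivisors K F] (x : F) : Divisor K F :=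
  if hx : x = 0 then 0 else (HasPrincipalDivisors.exists_divisor (K := K) x hx).choose

theorem v27d_div_apply [HasPrincipalDivisors K F] {x : F} (hx : x ≠ 0) (v : Place K F) :
    v27d_div K x v = v.ord x := by
  rw [v27d_div, dif_neg hx]
  exact (HasPrincipalDivisors.exists_divisor (K := K) x hx).choose_spec.1 v

theorem v27d_div_apply' [HasPrincipalDivisors K F] (x : F) (v : Place K F) :
    v27d_div K x v = v.ord x := by
  rcases eq_or_ne x 0 with rfl | hx
  · simp [v27d_div]
  · exact v27d_div_apply hx v

theorem v27d_degree_div [HasPrincipalDivisors K F] (x : F) :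
    Divisor.degree (v27d_div K x) = 0 := by
  rcases eq_or_ne x 0 with rfl | hx
  · simp [v27d_div]
  · rw [v27d_div, dif_neg hx]
    exact (HasPrincipalDivisors.exists_divisor (K := K) x hx).choose_spec.2

theorem v27d_div_inv [HasPrincipalDivisors K F] (x : F) :
    v27d_div K x⁻¹ = -v27d_div K x := by
  ext v
  rw [Finsupp.neg_apply, v27d_div_apply', v27d_div_apply', Place.ord_inv]

theorem v27d_div_mul [HasPrincipalDivisors K F] {x y : F} (hx : x ≠ 0) (hy : y ≠ 0) :
    v27d_div K (x * y) = v27d_div K x + v27d_div K y := by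
  ext v
  rw [Finsupp.add_apply, v27d_div_apply', v27d_div_apply', v27d_div_apply', Place.ord_mul v hx hy]

/-- membership of a non-zero function in `L(D)` in terms of divisors. -/
theorem v27d_mem_rrSpace_iff [HasPrincipalDivisors K F] {D : Divisor K F} {x : F} (hx : x ≠ 0) :
    x ∈ riemannRochSpace D ↔ -D ≤ v27d_div K x := by
  rw [mem_riemannRochSpace_iff, Finsupp.le_def]
  refine forall_congr' fun v => ?_
  rw [Finsupp.neg_apply, v27d_div_apply', or_iff_right hx]

/-! ### the submodules `S(D) = A(D) + F` and scalar multiplication -/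

/-- `S(D) = A(D) + F` inside the adele space. -/
def v27d_S (D : Divisor K F) : Submodule K ↥(repartitions K F) :=
  repartitionsOf D ⊔ principalRepartitions K F

theorem v27d_S_mono {D D' : Divisor K F} (h : D ≤ D') : v27d_S D ≤ v27d_S D' :=
  sup_le_sup_right (repartitionsOf_mono h) _

theorem v27d_coe_smul (x : F) (α : ↥(repartitions K F)) (v : Place K F) :
    ((x • α : ↥(repartitions K F)) : Place K F → F) v = x * (α : Place K F → F) v := rfl

theorem v27d_smul_mem_repartitionsOf [HasPrincipalDivisors K F] {D : Divisor K F} {x : F}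
    (hx : x ≠ 0) {α : ↥(repartitions K F)} (hα : α ∈ repartitionsOf D) :
    x • α ∈ repartitionsOf (D - v27d_div K x) := by
  rw [mem_repartitionsOf_iff] at hα ⊢
  intro v
  by_cases h0 : (α : Place K F → F) v = 0
  · left
    rw [v27d_coe_smul, h0, mul_zero]
  · right
    have h := (hα v).resolve_left h0
    rw [v27d_coe_smul, Place.ord_mul v hx h0]
    have e : (D - v27d_div K x) v = D v - v.ord x := by
      rw [Finsupp.sub_apply, v27d_div_apply']
    rw [e]
    linarith

theorem v27d_smul_mem_principal (x : F) {α : ↥(repartitions K F)}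
    (hα : α ∈ principalRepartitions K F) : x • α ∈ principalRepartitions K F := by
  rw [mem_principalRepartitions_iff] at hα ⊢
  obtain ⟨f, hf⟩ := hα
  refine ⟨x * f, ?_⟩
  funext v
  rw [v27d_coe_smul, hf]

theorem v27d_smul_mem_S [HasPrincipalDivisors K F] {D : Divisor K F} {x : F}
    (hx : x ≠ 0) {α : ↥(repartitions K F)} (hα : α ∈ v27d_S D) :
    x • α ∈ v27d_S (D - v27d_div K x) := by
  rw [v27d_S, Submodule.mem_sup] at hα
  obtain ⟨a, ha, b, hb, rfl⟩ := hα
  rw [smul_add]
  exact Submodule.add_mem _
    (Submodule.mem_sup_left (v27d_smul_mem_repartitionsOf hx ha))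
    (Submodule.mem_sup_right (v27d_smul_mem_principal x hb))

/-! ### Weil differentials -/

/-- the Weil differentials vanishing on `A(D) + F`. -/
def v27d_Om (D : Divisor K F) : Submodule K (Dual K ↥(repartitions K F)) :=
  (v27d_S D).dualAnnihilator

theorem v27d_mem_Om {D : Divisor K F} {ω : Dual K ↥(repartitions K F)} :
    ω ∈ v27d_Om D ↔ ∀ α ∈ v27d_S D, ω α = 0 :=
  Submodule.mem_dualAnnihilator _

theorem v27d_Om_anti {D D' : Divisor K F} (h : D ≤ D') : v27d_Om D' ≤ v27d_Om D :=
  Submodule.dualAnnihilator_anti (v27d_S_mono h)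

/-- `dim Ω(D) = i(D)`. -/
theorem v27d_finrank_Om (D : Divisor K F) :
    finrank K (v27d_Om D) = finrank K (H1 D) := by
  rw [v27d_Om, ← (Submodule.dualQuotEquivDualAnnihilator (v27d_S D)).finrank_eq,
    Subspace.dual_finrank_eq]
  rfl

theorem v27d_finite_Om (D : Divisor K F) [h : Module.Finite K (H1 D)] :
    Module.Finite K (v27d_Om D) := by
  haveI : Module.Finite K (↥(repartitions K F) ⧸ v27d_S D) := h
  exact Module.Finite.equiv (Submodule.dualQuotEquivDualAnnihilator (v27d_S D))

/-- the action of `F` on functionals: `(x·ω)(α) = ω(xα)`. -/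
def v27d_act (ω : Dual K ↥(repartitions K F)) : F →ₗ[K] Dual K ↥(repartitions K F) where
  toFun x := ω ∘ₗ (Algebra.lsmul K K ↥(repartitions K F) x)
  map_add' x y := by
    ext α
    simp
  map_smul' c x := by
    ext α
    simp

@[simp]
theorem v27d_act_apply (ω : Dual K ↥(repartitions K F)) (x : F) (α : ↥(repartitions K F)) :
    v27d_act ω x α = ω (x • α) := rfl

theorem v27d_act_one (ω : Dual K ↥(repartitions K F)) : v27d_act ω 1 = ω := by
  ext α
  simp

theorem v27d_act_act (ω : Dual K ↥(repartitions K F)) (x y : F) :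
    v27d_act (v27d_act ω x) y = v27d_act ω (x * y) := by
  ext α
  simp [mul_smul]

theorem v27d_act_add_left (ω η : Dual K ↥(repartitions K F)) (x : F) :
    v27d_act (ω + η) x = v27d_act ω x + v27d_act η x := by
  ext α
  simp

theorem v27d_act_zero_left (x : F) :
    v27d_act (0 : Dual K ↥(repartitions K F)) x = 0 := by
  ext α
  simp

/-- (F1) `ω ∈ Ω(D)`, `x ≠ 0` imply `xω ∈ Ω(D + (x))`. -/
theorem v27d_act_mem_Om [HasPrincipalDivisors K F] {D : Divisor K F}
    {ω : Dual K ↥(repartitions K F)} (hω : ω ∈ v27d_Om D) {x : F} (hx : x ≠ 0) :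
    v27d_act ω x ∈ v27d_Om (D + v27d_div K x) := by
  rw [v27d_mem_Om] at hω ⊢
  intro α hα
  rw [v27d_act_apply]
  apply hω
  have := v27d_smul_mem_S hx hα
  rwa [add_sub_cancel_right] at this

theorem v27d_act_injective {ω : Dual K ↥(repartitions K F)} (hω : ω ≠ 0) :
    Function.Injective (v27d_act ω) := by
  rw [← LinearMap.ker_eq_bot, LinearMap.ker_eq_bot']
  intro x hx
  by_contra hx0
  apply hω
  have := congrArg (fun η => v27d_act η x⁻¹) hx
  simp only [v27d_act_act, mul_inv_cancel₀ hx0, v27d_act_one, v27d_act_zero_left] at this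
  exact this

end Fermat.Agent.V.Dual
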