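import Fermat.Agent.V.Dual.Weil

/-!
# Program V (S27), leaf A2.3: duality `i(D) = l(W - D)` and the Riemann–Roch theorem

Inputs (all as hypotheses, on the Prelude definitions, arbitrary constant field `K`):
* `hres`  : residue fields of places are finite over `K`;
* `hfinL` : `L(D)` is finite-dimensional;
* `hfinH` : `H¹(D) = A/(A(D)+F)` is finite-dimensional;
* `hRR1`  : `l(D) = deg D + 1 - g + i(D)` (first form of Riemann–Roch);
* `hRiem` : `i(D) = 0` for `deg D ≥ c` (Riemann's theorem);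
* `hneg`  : `L(D) = 0` for `deg D < 0`.

Outputs:
* `v27d_exists_eq_act`     : the Weil differentials form an `F`-space of dimension `≤ 1`;
* `v27d_exists_canonical`  : `∃ W, ∀ D, i(D) = l(W - D)`;
* `v27d_riemann_roch`      : `∃ W, deg W = 2g - 2 ∧ l(W) = g ∧ ∀ D, l(D) = deg D + 1 - g + l(W - D)`;
* `v27d_finrank_rrSpace_of_lt` : `deg D > 2g - 2 → l(D) = deg D + 1 - g`.
-/

set_option autoImplicit false
set_option linter.unusedSectionVars false
set_option linter.unusedVariables false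

noncomputable section

namespace Fermat.Agent.V.Dual

open AlgebraicCurve Module

variable {K F : Type*} [Field K] [Field F] [Algebra K F]

/-- `x ↦ xω` maps `L(D + B)` into `Ω(-B)` when `ω ∈ Ω(D)`. -/
theorem v27d_act_mem_Om_neg [HasPrincipalDivisors K F] {D B : Divisor K F}
    {ω : Dual K ↥(repartitions K F)} (hω : ω ∈ v27d_Om D) {x : F}
    (hx : x ∈ riemannRochSpace (D + B)) : v27d_act ω x ∈ v27d_Om (-B) := by
  rcases eq_or_ne x 0 with rfl | hx0
  · rw [map_zero]
    exact Submodule.zero_mem _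
  · rw [v27d_mem_rrSpace_iff hx0] at hx
    refine v27d_Om_anti ?_ (v27d_act_mem_Om hω hx0)
    have := add_le_add_left hx D
    simpa [add_comm, add_left_comm, add_assoc] using this

/-- the image of `L(E)` under `x ↦ xω`. -/
def v27d_img (ω : Dual K ↥(repartitions K F)) (E : Divisor K F) :
    Submodule K (Dual K ↥(repartitions K F)) :=
  (riemannRochSpace E).map (v27d_act ω)

theorem v27d_finrank_img {ω : Dual K ↥(repartitions K F)} (hω : ω ≠ 0) (E : Divisor K F) :
    finrank K (v27d_img ω E) = finrank K (riemannRochSpace E) :=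
  (Submodule.equivMapOfInjective (v27d_act ω) (v27d_act_injective hω)
    (riemannRochSpace E)).finrank_eq.symm

theorem v27d_degree_nsmul_single (P : Place K F) (n : ℕ) :
    Divisor.degree (Finsupp.single P (n : ℤ)) = n * P.deg :=
  Divisor.degree_single P n

/-- (F4) the Weil differentials form an `F`-vector space of dimension at most one. -/
theorem v27d_exists_eq_act [HasPrincipalDivisors K F]
    (hres : ∀ v : Place K F, Module.Finite K v.ResidueField) (hP : Nonempty (Place K F))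
    (g : ℤ) (hfinL : ∀ D : Divisor K F, Module.Finite K (riemannRochSpace D))
    (hfinH : ∀ D : Divisor K F, Module.Finite K (H1 D))
    (hRR1 : ∀ D : Divisor K F, (finrank K (riemannRochSpace D) : ℤ) =
      Divisor.degree D + 1 - g + finrank K (H1 D))
    (hneg : ∀ D : Divisor K F, Divisor.degree D < 0 → riemannRochSpace D = ⊥)
    {ω₁ ω₂ : Dual K ↥(repartitions K F)} (h1 : ω₁ ≠ 0) (h2 : ω₂ ≠ 0) {D₁ D₂ : Divisor K F}
    (hω₁ : ω₁ ∈ v27d_Om D₁) (hω₂ : ω₂ ∈ v27d_Om D₂) :
    ∃ x : F, x ≠ 0 ∧ ω₂ = v27d_act ω₁ x := by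
  obtain ⟨P⟩ := hP
  have hd := v27d_deg_pos hres P
  -- choose `n` large
  set t : ℤ := |3 * g - 3 - Divisor.degree D₁ - Divisor.degree D₂| + 1 with ht
  have ht0 : 0 < t := by positivity
  set n : ℕ := t.toNat with hn
  have hnt : (n : ℤ) = t := Int.toNat_of_nonneg ht0.le
  set B : Divisor K F := Finsupp.single P (n : ℤ) with hB
  have hdegB : Divisor.degree B = n * P.deg := v27d_degree_nsmul_single P n
  have hdegB' : t ≤ Divisor.degree B := by
    rw [hdegB, hnt]
    have : (1 : ℤ) ≤ P.deg := by exact_mod_cast hd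
    nlinarith
  have hbig : 3 * g - 3 - Divisor.degree D₁ - Divisor.degree D₂ < Divisor.degree B :=
    lt_of_lt_of_le (by rw [ht]; exact lt_of_le_of_lt (le_abs_self _) (lt_add_one _)) hdegB'
  have hBpos : 0 < Divisor.degree B := lt_of_lt_of_le ht0 hdegB'
  -- the two images inside `Ω(-B)`
  have hle1 : v27d_img ω₁ (D₁ + B) ≤ v27d_Om (-B) := by
    rintro _ ⟨x, hx, rfl⟩
    exact v27d_act_mem_Om_neg hω₁ hx
  have hle2 : v27d_img ω₂ (D₂ + B) ≤ v27d_Om (-B) := by
    rintro _ ⟨x, hx, rfl⟩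
    exact v27d_act_mem_Om_neg hω₂ hx
  have := hfinH (-B)
  have hfinOm : Module.Finite K (v27d_Om (-B)) := v27d_finite_Om (-B)
  have := hfinL (D₁ + B)
  have := hfinL (D₂ + B)
  have hf1 : Module.Finite K (v27d_img ω₁ (D₁ + B)) := by
    unfold v27d_img; infer_instance
  have hf2 : Module.Finite K (v27d_img ω₂ (D₂ + B)) := by
    unfold v27d_img; infer_instance
  -- dimensions
  have hdimOm : (finrank K (v27d_Om (-B)) : ℤ) = Divisor.degree B - 1 + g := by
    have e := hRR1 (-B)
    rw [hneg (-B) (by rw [map_neg]; linarith), finrank_bot, map_neg] at e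
    rw [v27d_finrank_Om]
    push_cast at e
    linarith
  have hdim1 : Divisor.degree D₁ + Divisor.degree B + 1 - g ≤
      (finrank K (v27d_img ω₁ (D₁ + B)) : ℤ) := by
    rw [v27d_finrank_img h1, hRR1, map_add]
    have : (0 : ℤ) ≤ finrank K (H1 (D₁ + B)) := Int.natCast_nonneg _
    linarith
  have hdim2 : Divisor.degree D₂ + Divisor.degree B + 1 - g ≤
      (finrank K (v27d_img ω₂ (D₂ + B)) : ℤ) := by
    rw [v27d_finrank_img h2, hRR1, map_add]
    have : (0 : ℤ) ≤ finrank K (H1 (D₂ + B)) := Int.natCast_nonneg _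
    linarith
  have hsup : finrank K ↥(v27d_img ω₁ (D₁ + B) ⊔ v27d_img ω₂ (D₂ + B)) ≤
      finrank K (v27d_Om (-B)) := Submodule.finrank_mono (sup_le hle1 hle2)
  have hsum := Submodule.finrank_sup_add_finrank_inf_eq (v27d_img ω₁ (D₁ + B))
    (v27d_img ω₂ (D₂ + B))
  have hinf : 0 < finrank K ↥(v27d_img ω₁ (D₁ + B) ⊓ v27d_img ω₂ (D₂ + B)) := by
    have hsup' : (finrank K ↥(v27d_img ω₁ (D₁ + B) ⊔ v27d_img ω₂ (D₂ + B)) : ℤ) ≤
        finrank K (v27d_Om (-B)) := by exact_mod_cast hsup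
    have hsum' : (finrank K ↥(v27d_img ω₁ (D₁ + B) ⊔ v27d_img ω₂ (D₂ + B)) : ℤ) +
        finrank K ↥(v27d_img ω₁ (D₁ + B) ⊓ v27d_img ω₂ (D₂ + B)) =
        finrank K (v27d_img ω₁ (D₁ + B)) + finrank K (v27d_img ω₂ (D₂ + B)) := by
      exact_mod_cast hsum
    have : (0 : ℤ) < finrank K ↥(v27d_img ω₁ (D₁ + B) ⊓ v27d_img ω₂ (D₂ + B)) := by
      linarith
    exact_mod_cast this
  -- a common non-zero element
  have hnebot : v27d_img ω₁ (D₁ + B) ⊓ v27d_img ω₂ (D₂ + B) ≠ ⊥ := by
    intro h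
    rw [h, finrank_bot] at hinf
    exact lt_irrefl _ hinf
  obtain ⟨η, hη, hη0'⟩ := Submodule.exists_mem_ne_zero_of_ne_bot hnebot
  obtain ⟨⟨x₁, hx₁, e₁⟩, ⟨x₂, hx₂, e₂⟩⟩ := hη
  have hx₂0 : x₂ ≠ 0 := by
    rintro rfl
    rw [map_zero] at e₂
    exact hη0' e₂.symm
  have hx₁0 : x₁ ≠ 0 := by
    rintro rfl
    rw [map_zero] at e₁
    exact hη0' e₁.symm
  refine ⟨x₁ * x₂⁻¹, mul_ne_zero hx₁0 (inv_ne_zero hx₂0), ?_⟩
  have e : v27d_act ω₂ x₂ = v27d_act ω₁ x₁ := e₂.trans e₁.symm
  have := congrArg (fun η => v27d_act η x₂⁻¹) e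
  simp only [v27d_act_act, mul_inv_cancel₀ hx₂0, v27d_act_one] at this
  exact this

/-- existence of a non-zero Weil differential. -/
theorem v27d_exists_ne_zero
    (hres : ∀ v : Place K F, Module.Finite K v.ResidueField) (hP : Nonempty (Place K F))
    (g : ℤ)
    (hRR1 : ∀ D : Divisor K F, (finrank K (riemannRochSpace D) : ℤ) =
      Divisor.degree D + 1 - g + finrank K (H1 D))
    (hneg : ∀ D : Divisor K F, Divisor.degree D < 0 → riemannRochSpace D = ⊥) :
    ∃ (D₀ : Divisor K F) (ω : Dual K ↥(repartitions K F)), ω ≠ 0 ∧ ω ∈ v27d_Om D₀ := by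
  obtain ⟨P⟩ := hP
  have hd := v27d_deg_pos hres P
  set t : ℤ := |g| + 2 with ht
  have ht0 : 0 < t := by positivity
  set n : ℕ := t.toNat with hn
  have hnt : (n : ℤ) = t := Int.toNat_of_nonneg ht0.le
  set B : Divisor K F := Finsupp.single P (n : ℤ) with hB
  have hdegB : Divisor.degree B = n * P.deg := v27d_degree_nsmul_single P n
  have hdegB' : t ≤ Divisor.degree B := by
    rw [hdegB, hnt]
    have : (1 : ℤ) ≤ P.deg := by exact_mod_cast hd
    nlinarith
  have hBpos : 0 < Divisor.degree B := lt_of_lt_of_le ht0 hdegB'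
  have e := hRR1 (-B)
  rw [hneg (-B) (by rw [map_neg]; linarith), finrank_bot, map_neg] at e
  have hpos : 0 < finrank K (v27d_Om (-B)) := by
    rw [v27d_finrank_Om]
    have h1 : (0 : ℤ) < finrank K (H1 (-B)) := by
      push_cast at e
      have := neg_abs_le g
      linarith
    exact_mod_cast h1
  have hnebot : v27d_Om (-B) ≠ ⊥ := by
    intro h
    rw [h, finrank_bot] at hpos
    exact lt_irrefl _ hpos
  obtain ⟨ω, hω, hω0⟩ := Submodule.exists_mem_ne_zero_of_ne_bot hnebot
  exact ⟨-B, ω, hω0, hω⟩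

/-- (F5) **Duality**: there is a divisor `W` with `i(D) = l(W - D)` for every `D`. -/
theorem v27d_exists_canonical [HasPrincipalDivisors K F]
    (hres : ∀ v : Place K F, Module.Finite K v.ResidueField) (hP : Nonempty (Place K F))
    (g : ℤ) (hfinL : ∀ D : Divisor K F, Module.Finite K (riemannRochSpace D))
    (hfinH : ∀ D : Divisor K F, Module.Finite K (H1 D))
    (hRR1 : ∀ D : Divisor K F, (finrank K (riemannRochSpace D) : ℤ) =
      Divisor.degree D + 1 - g + finrank K (H1 D))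
    (hRiem : ∃ c : ℤ, ∀ D : Divisor K F, c ≤ Divisor.degree D → finrank K (H1 D) = 0)
    (hneg : ∀ D : Divisor K F, Divisor.degree D < 0 → riemannRochSpace D = ⊥) :
    ∃ W : Divisor K F, ∀ D : Divisor K F,
      finrank K (H1 D) = finrank K (riemannRochSpace (W - D)) := by
  obtain ⟨D₀, ω₀, hω₀, hmem₀⟩ := v27d_exists_ne_zero hres hP g hRR1 hneg
  obtain ⟨W, hW⟩ := v27d_exists_max hres hfinH hRiem hω₀ hmem₀
  refine ⟨W, fun D => ?_⟩
  rw [← v27d_finrank_Om, ← v27d_finrank_img hω₀ (W - D)]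
  suffices hEq : v27d_Om D = v27d_img ω₀ (W - D) by rw [hEq]
  apply le_antisymm
  · -- `Ω(D) ⊆ L(W - D)·ω₀`
    intro ω hω
    rcases eq_or_ne ω 0 with rfl | hω0
    · exact Submodule.zero_mem _
    · obtain ⟨x, hx0, rfl⟩ := v27d_exists_eq_act hres hP g hfinL hfinH hRR1 hneg hω₀ hω0
        hmem₀ hω
      refine ⟨x, ?_, rfl⟩
      rw [SetLike.mem_coe, v27d_mem_rrSpace_iff hx0]
      have h := (v27d_act_mem_Om_iff hW hx0 D).1 hω
      have := sub_le_sub_right h W
      simpa [sub_eq_add_neg, add_comm, add_left_comm, add_assoc] using this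
  · -- `L(W - D)·ω₀ ⊆ Ω(D)`
    rintro _ ⟨x, hx, rfl⟩
    rcases eq_or_ne x 0 with rfl | hx0
    · rw [map_zero]
      exact Submodule.zero_mem _
    · rw [SetLike.mem_coe, v27d_mem_rrSpace_iff hx0] at hx
      refine (v27d_act_mem_Om_iff hW hx0 D).2 ?_
      have := add_le_add_left hx W
      simpa [sub_eq_add_neg, add_comm, add_left_comm, add_assoc] using this

/-- **Riemann–Roch** with a canonical divisor. `h0 : l(0) = 1` says that `K` is the full constant
field. -/
theorem v27d_riemann_roch [HasPrincipalDivisors K F]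
    (hres : ∀ v : Place K F, Module.Finite K v.ResidueField) (hP : Nonempty (Place K F))
    (g : ℤ) (hfinL : ∀ D : Divisor K F, Module.Finite K (riemannRochSpace D))
    (hfinH : ∀ D : Divisor K F, Module.Finite K (H1 D))
    (hRR1 : ∀ D : Divisor K F, (finrank K (riemannRochSpace D) : ℤ) =
      Divisor.degree D + 1 - g + finrank K (H1 D))
    (hRiem : ∃ c : ℤ, ∀ D : Divisor K F, c ≤ Divisor.degree D → finrank K (H1 D) = 0)
    (hneg : ∀ D : Divisor K F, Divisor.degree D < 0 → riemannRochSpace D = ⊥)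
    (h0 : finrank K (riemannRochSpace (0 : Divisor K F)) = 1) :
    ∃ W : Divisor K F, Divisor.degree W = 2 * g - 2 ∧
      (finrank K (riemannRochSpace W) : ℤ) = g ∧
      (∀ D : Divisor K F, finrank K (H1 D) = finrank K (riemannRochSpace (W - D))) ∧
      ∀ D : Divisor K F, (finrank K (riemannRochSpace D) : ℤ) =
        Divisor.degree D + 1 - g + finrank K (riemannRochSpace (W - D)) := by
  obtain ⟨W, hW⟩ := v27d_exists_canonical hres hP g hfinL hfinH hRR1 hRiem hneg
  have hRR : ∀ D : Divisor K F, (finrank K (riemannRochSpace D) : ℤ) =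
      Divisor.degree D + 1 - g + finrank K (riemannRochSpace (W - D)) := by
    intro D
    rw [hRR1 D, hW D]
  have e0 := hRR 0
  rw [h0, map_zero, sub_zero] at e0
  have eW := hRR W
  rw [sub_self, h0] at eW
  push_cast at e0 eW
  refine ⟨W, by linarith, by linarith, hW, hRR⟩

/-- `l(D) = deg D + 1 - g` for `deg D > 2g - 2`. -/
theorem v27d_finrank_rrSpace_of_lt [HasPrincipalDivisors K F]
    (hres : ∀ v : Place K F, Module.Finite K v.ResidueField) (hP : Nonempty (Place K F))
    (g : ℤ) (hfinL : ∀ D : Divisor K F, Module.Finite K (riemannRochSpace D))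
    (hfinH : ∀ D : Divisor K F, Module.Finite K (H1 D))
    (hRR1 : ∀ D : Divisor K F, (finrank K (riemannRochSpace D) : ℤ) =
      Divisor.degree D + 1 - g + finrank K (H1 D))
    (hRiem : ∃ c : ℤ, ∀ D : Divisor K F, c ≤ Divisor.degree D → finrank K (H1 D) = 0)
    (hneg : ∀ D : Divisor K F, Divisor.degree D < 0 → riemannRochSpace D = ⊥)
    (h0 : finrank K (riemannRochSpace (0 : Divisor K F)) = 1)
    {D : Divisor K F} (hD : 2 * g - 2 < Divisor.degree D) :
    (finrank K (riemannRochSpace D) : ℤ) = Divisor.degree D + 1 - g ∧ finrank K (H1 D) = 0 := by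
  obtain ⟨W, hdegW, -, hW, hRR⟩ :=
    v27d_riemann_roch hres hP g hfinL hfinH hRR1 hRiem hneg h0
  have hz : riemannRochSpace (W - D) = ⊥ := hneg _ (by rw [map_sub]; linarith)
  refine ⟨?_, ?_⟩
  · rw [hRR D, hz, finrank_bot]
    simp
  · rw [hW D, hz, finrank_bot]

end Fermat.Agent.V.Dual
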