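import Fermat.Agent.V.Dual.Basic

/-!
# Program V (S27), leaf A2.3: the divisor of a Weil differential

* `v27d_exists_max`: a non-zero Weil differential `ω` has a largest divisor `W = (ω)` with
  `ω ∈ Ω(W)`; moreover `ω ∈ Ω(D) ↔ D ≤ W`.
* `v27d_act_mem_Om_iff`: `(xω) = (x) + (ω)`.
-/

set_option autoImplicit false
set_option linter.unusedSectionVars false
set_option linter.unusedVariables false

noncomputable section

namespace Fermat.Agent.V.Dual

open AlgebraicCurve Module

variable {K F : Type*} [Field K] [Field F] [Algebra K F]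

/-- a non-zero Weil differential in `Ω(D)` forces `deg D < c` (`c` the Riemann bound). -/
theorem v27d_degree_lt_of_mem_Om
    (hfinH : ∀ D : Divisor K F, Module.Finite K (H1 D)) {c : ℤ}
    (hRiem : ∀ D : Divisor K F, c ≤ Divisor.degree D → finrank K (H1 D) = 0)
    {D : Divisor K F} {ω : Dual K ↥(repartitions K F)} (hω : ω ∈ v27d_Om D) (h0 : ω ≠ 0) :
    Divisor.degree D < c := by
  by_contra hc
  have h1 := hRiem D (not_lt.mp hc)
  have := hfinH D
  have hsub : Subsingleton (H1 D) := Module.finrank_zero_iff.mp h1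
  have htop : v27d_S D = ⊤ := Submodule.Quotient.subsingleton_iff.mp hsub
  apply h0
  ext α
  exact (v27d_mem_Om.mp hω) α (htop ▸ Submodule.mem_top)

open Classical in
/-- the indicator adele of a place. -/
def v27d_ind (Q : Place K F) : ↥(repartitions K F) :=
  ⟨fun v => if v = Q then 1 else 0, mem_repartitions_of_finite (by
    convert Set.finite_empty
    ext v
    simp only [Set.mem_ofPred_eq, Set.mem_empty_iff_false, iff_false, not_not]
    split_ifs <;> simp)⟩

open Classical in
theorem v27d_ind_mul_apply (Q : Place K F) (α : ↥(repartitions K F)) (v : Place K F) :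
    ((v27d_ind Q * α : ↥(repartitions K F)) : Place K F → F) v =
      if v = Q then (α : Place K F → F) v else 0 := by
  show (if v = Q then (1 : F) else 0) * (α : Place K F → F) v = _
  split_ifs <;> simp

/-- splitting off the `Q`-component: the `Q`-part lies in `A(D)` as soon as `D Q > W Q`. -/
theorem v27d_ind_mul_mem {W D : Divisor K F} {Q : Place K F} (hQ : W Q + 1 ≤ D Q)
    {α : ↥(repartitions K F)} (hα : α ∈ repartitionsOf (W + Finsupp.single Q 1)) :
    v27d_ind Q * α ∈ repartitionsOf D := by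
  classical
  rw [mem_repartitionsOf_iff] at hα ⊢
  intro v
  rw [v27d_ind_mul_apply]
  split_ifs with h
  · subst h
    rcases hα v with h0 | h1
    · exact Or.inl h0
    · right
      rw [Finsupp.add_apply, Finsupp.single_eq_same] at h1
      linarith
  · exact Or.inl rfl

/-- splitting off the `Q`-component: the rest lies in `A(W)`. -/
theorem v27d_sub_ind_mul_mem {W : Divisor K F} {Q : Place K F}
    {α : ↥(repartitions K F)} (hα : α ∈ repartitionsOf (W + Finsupp.single Q 1)) :
    α - v27d_ind Q * α ∈ repartitionsOf W := by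
  classical
  rw [mem_repartitionsOf_iff] at hα ⊢
  intro v
  have e : ((α - v27d_ind Q * α : ↥(repartitions K F)) : Place K F → F) v =
      (α : Place K F → F) v - ((v27d_ind Q * α : ↥(repartitions K F)) : Place K F → F) v := rfl
  rw [e, v27d_ind_mul_apply]
  split_ifs with h
  · left
    simp
  · rw [sub_zero]
    rcases hα v with h0 | h1
    · exact Or.inl h0
    · right
      rw [Finsupp.add_apply, Finsupp.single_eq_of_ne h, add_zero] at h1
      exact h1

/-- if `ω` kills `A(W) + F` and `A(D) + F` and `D Q > W Q`, then it kills `A(W + Q) + F`. -/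
theorem v27d_mem_Om_add_single {W D : Divisor K F} {Q : Place K F} (hQ : W Q + 1 ≤ D Q)
    {ω : Dual K ↥(repartitions K F)} (hW : ω ∈ v27d_Om W) (hD : ω ∈ v27d_Om D) :
    ω ∈ v27d_Om (W + Finsupp.single Q 1) := by
  rw [v27d_mem_Om] at hW hD ⊢
  intro α hα
  rw [v27d_S, Submodule.mem_sup] at hα
  obtain ⟨a, ha, b, hb, rfl⟩ := hα
  rw [map_add, hW b (Submodule.mem_sup_right hb), add_zero]
  have h1 := hD _ (Submodule.mem_sup_left (v27d_ind_mul_mem hQ ha))
  have h2 := hW _ (Submodule.mem_sup_left (v27d_sub_ind_mul_mem ha))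
  rw [map_sub, h1, sub_zero] at h2
  exact h2

theorem v27d_deg_pos (hres : ∀ v : Place K F, Module.Finite K v.ResidueField) (Q : Place K F) :
    0 < Q.deg := by
  have := hres Q
  exact Module.finrank_pos

/-- (F2) the divisor of a non-zero Weil differential. -/
theorem v27d_exists_max (hres : ∀ v : Place K F, Module.Finite K v.ResidueField)
    (hfinH : ∀ D : Divisor K F, Module.Finite K (H1 D))
    (hRiem : ∃ c : ℤ, ∀ D : Divisor K F, c ≤ Divisor.degree D → finrank K (H1 D) = 0)
    {ω : Dual K ↥(repartitions K F)} (h0 : ω ≠ 0) {D₀ : Divisor K F} (hω : ω ∈ v27d_Om D₀) :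
    ∃ W : Divisor K F, ∀ D : Divisor K F, ω ∈ v27d_Om D ↔ D ≤ W := by
  obtain ⟨c, hc⟩ := hRiem
  obtain ⟨z, ⟨W, hW, rfl⟩, hmax⟩ := Int.exists_greatest_of_bdd
    (P := fun z => ∃ D : Divisor K F, ω ∈ v27d_Om D ∧ Divisor.degree D = z)
    ⟨c, by
      rintro z ⟨D, hD, rfl⟩
      exact (v27d_degree_lt_of_mem_Om hfinH hc hD h0).le⟩
    ⟨_, D₀, hω, rfl⟩
  refine ⟨W, fun D => ⟨fun hD => ?_, fun hD => v27d_Om_anti hD hW⟩⟩
  by_contra hle
  rw [Finsupp.le_def, not_forall] at hle
  obtain ⟨Q, hQ⟩ := hle
  have hmem := v27d_mem_Om_add_single (Q := Q) (by omega) hW hD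
  have := hmax _ ⟨_, hmem, rfl⟩
  rw [map_add, Divisor.degree_single, one_mul] at this
  have hpos := v27d_deg_pos hres Q
  omega

/-- (F3) `(xω) = (x) + (ω)`. -/
theorem v27d_act_mem_Om_iff [HasPrincipalDivisors K F] {ω : Dual K ↥(repartitions K F)}
    {W : Divisor K F} (hW : ∀ D : Divisor K F, ω ∈ v27d_Om D ↔ D ≤ W) {x : F} (hx : x ≠ 0)
    (D : Divisor K F) : v27d_act ω x ∈ v27d_Om D ↔ D ≤ W + v27d_div K x := by
  constructor
  · intro h
    have h1 := v27d_act_mem_Om h (inv_ne_zero hx)
    rw [v27d_act_act, mul_inv_cancel₀ hx, v27d_act_one, v27d_div_inv, hW] at h1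
    have := add_le_add_left h1 (v27d_div K x)
    simpa [add_comm] using this
  · intro h
    exact v27d_Om_anti h (v27d_act_mem_Om ((hW W).2 le_rfl) hx)

end Fermat.Agent.V.Dual
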